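import Mathlib
import Fermat.Agent.S29.LatticeKey

/-!
# IN-JAC, task HKM: the abstract lattice step with non-commuting ambient operators

`M` is a finitely generated torsion-free `ℤ`-module with commuting endomorphisms `T i`; `U` is a
`ℂ`-vector space with `ℂ`-linear operators `S i` (no commutativity assumed) and `j : M → U` is an
additive map intertwining `T i` and `S i`.  If `v ≠ 0` lies in the `ℂ`-span of `j M`, is a
simultaneous eigenvector of the `S i` with eigenvalues `a i`, and `P(T) M ⊆ p M`, then
`P(a) ∈ p • ℤ̄`.
-/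

set_option autoImplicit false

namespace Fermat.Agent.Jac.HKM

open Fermat.Agent.S29.LK

section

variable {M : Type*} [AddCommGroup M] {ι : Type*}
variable {U : Type*} [AddCommGroup U] [Module ℂ U]

/-- the span of the image of the lattice is stable under the ambient operators -/
theorem h57_span_stable (T : ι → Module.End ℤ M) (S : ι → Module.End ℂ U) (j : M →ₗ[ℤ] U)
    (hj : ∀ i x, S i (j x) = j (T i x)) (i : ι) :
    ∀ w ∈ Submodule.span ℂ (Set.range j), S i w ∈ Submodule.span ℂ (Set.range j) := by
  intro w hw
  induction hw using Submodule.span_induction with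
  | mem x hx =>
    obtain ⟨y, rfl⟩ := hx
    rw [hj]
    exact Submodule.subset_span ⟨_, rfl⟩
  | zero => rw [map_zero]; exact Submodule.zero_mem _
  | add x y _ _ hx hy => rw [map_add]; exact Submodule.add_mem _ hx hy
  | smul c x _ hx => rw [map_smul]; exact Submodule.smul_mem _ c hx

/-- the ambient operators commute on the span of the image of the lattice -/
theorem h57_span_commute (T : ι → Module.End ℤ M) (hT : ∀ i i', T i * T i' = T i' * T i)
    (S : ι → Module.End ℂ U) (j : M →ₗ[ℤ] U)
    (hj : ∀ i x, S i (j x) = j (T i x)) (i i' : ι) :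
    ∀ w ∈ Submodule.span ℂ (Set.range j), S i (S i' w) = S i' (S i w) := by
  intro w hw
  induction hw using Submodule.span_induction with
  | mem x hx =>
    obtain ⟨y, rfl⟩ := hx
    rw [hj, hj, hj, hj]
    have h := congrArg (fun f : Module.End ℤ M => f y) (hT i i')
    simp only [Module.End.mul_apply] at h
    rw [h]
  | zero => simp
  | add x y _ _ hx hy => rw [map_add, map_add, map_add, map_add, hx, hy]
  | smul c x _ hx => rw [map_smul, map_smul, map_smul, map_smul, hx]

/-- **Lattice key lemma with non-commuting ambient operators.** -/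
theorem h57_key [Module.Finite ℤ M] [IsAddTorsionFree M]
    (T : ι → Module.End ℤ M) (hT : ∀ i i', T i * T i' = T i' * T i)
    (S : ι → Module.End ℂ U) (j : M →ₗ[ℤ] U)
    (hj : ∀ i x, S i (j x) = j (T i x))
    (v : U) (hv0 : v ≠ 0) (hspan : v ∈ Submodule.span ℂ (Set.range j)) (a : ι → ℂ)
    (hv : ∀ i, S i v = a i • v)
    (P : MvPolynomial ι ℤ) (p : ℕ) (hp : p ≠ 0)
    (hP : ∀ x, ∃ y, evalOfCommute T hT P x = p • y) :
    ∃ b : integralClosure ℤ ℂ, MvPolynomial.aeval a P = (p : ℂ) * (b : ℂ) := by
  classical
  set W : Submodule ℂ U := Submodule.span ℂ (Set.range j) with hW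
  -- restricted operators
  let SW : ι → Module.End ℂ W := fun i => (S i).restrict (h57_span_stable T S j hj i)
  have hSW : ∀ i i', SW i * SW i' = SW i' * SW i := by
    intro i i'
    apply LinearMap.ext
    intro w
    apply Subtype.ext
    show S i (S i' w) = S i' (S i w)
    exact h57_span_commute T hT S j hj i i' w w.2
  -- restricted lattice map
  let jW : M →ₗ[ℤ] W :=
    { toFun := fun x => ⟨j x, Submodule.subset_span ⟨x, rfl⟩⟩
      map_add' := fun x y => Subtype.ext (map_add j x y)
      map_smul' := fun c x => Subtype.ext (map_zsmul j c x) }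
  have hjW : ∀ i x, jW (evalOfCommute T hT (MvPolynomial.X i) x)
      = evalOfCommute SW hSW (MvPolynomial.X i) (jW x) := by
    intro i x
    rw [evalOfCommute_X, evalOfCommute_X]
    apply Subtype.ext
    show j (T i x) = S i (j x)
    rw [hj]
  have hspanW : (⟨v, hspan⟩ : W) ∈ Submodule.span ℂ (Set.range jW) := by
    have h1 : Submodule.map W.subtype (Submodule.span ℂ (Set.range jW)) = W := by
      rw [Submodule.map_span, ← Set.range_comp]
      rfl
    have h2 : v ∈ Submodule.map W.subtype (Submodule.span ℂ (Set.range jW)) := by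
      rw [h1]; exact hspan
    obtain ⟨w, hw, hwv⟩ := h2
    have : w = ⟨v, hspan⟩ := Subtype.ext hwv
    rwa [← this]
  have hv0W : (⟨v, hspan⟩ : W) ≠ 0 := by
    intro h
    exact hv0 (congrArg Subtype.val h)
  have hvW : ∀ i, evalOfCommute SW hSW (MvPolynomial.X i) (⟨v, hspan⟩ : W)
      = a i • (⟨v, hspan⟩ : W) := by
    intro i
    rw [evalOfCommute_X]
    apply Subtype.ext
    show S i v = a i • v
    exact hv i
  exact key_vector_of_forall (evalOfCommute T hT) (evalOfCommute SW hSW) jW hjW
    ⟨v, hspan⟩ hv0W hspanW a hvW P p hp hP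

end

end Fermat.Agent.Jac.HKM
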