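import Fermat.Agent.Jac.Skeleton

/-!
# IN-JAC, task HKM: cohomological Hecke operators extracted from `CohHeckeStatement`,
and the exponential characters `exp (2πi φ / q)`.
-/

set_option autoImplicit false
set_option linter.unusedSectionVars false

open ModularCurve AlgebraicCurve UpperHalfPlane CongruenceSubgroup
open scoped MatrixGroups

noncomputable section

namespace Fermat.Agent.Jac.HKM

variable {N : ℕ} [NeZero N]

/-! ## uniqueness of the cohomological Hecke operator -/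

theorem h57_cohAdd_unique {ℓ : ℕ}
    (hdec : ∀ γ : Gamma0 N, ∃ (π : Fin (ℓ + 1) → Fin (ℓ + 1)) (c : Fin (ℓ + 1) → Gamma0 N),
      Function.Bijective π ∧ HeckeDecomp N ℓ γ π c)
    {A : Type*} [AddCommMonoid A] {φ φ₁ φ₂ : Additive (Gamma0 N) →+ A}
    (h1 : IsCohHeckeAdd N ℓ φ φ₁) (h2 : IsCohHeckeAdd N ℓ φ φ₂) : φ₁ = φ₂ := by
  refine AddMonoidHom.ext fun γ => ?_
  obtain ⟨γ, rfl⟩ := Additive.ofMul.surjective γ
  obtain ⟨π, c, -, hd⟩ := hdec γ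
  rw [h1 γ π c hd, h2 γ π c hd]

theorem h57_coh_unique {ℓ : ℕ}
    (hdec : ∀ γ : Gamma0 N, ∃ (π : Fin (ℓ + 1) → Fin (ℓ + 1)) (c : Fin (ℓ + 1) → Gamma0 N),
      Function.Bijective π ∧ HeckeDecomp N ℓ γ π c)
    {M : Type*} [CommMonoid M] {χ χ₁ χ₂ : Gamma0 N →* M}
    (h1 : IsCohHecke N ℓ χ χ₁) (h2 : IsCohHecke N ℓ χ χ₂) : χ₁ = χ₂ := by
  refine MonoidHom.ext fun γ => ?_
  obtain ⟨π, c, -, hd⟩ := hdec γ
  rw [h1 γ π c hd, h2 γ π c hd]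

/-! ## the operators -/

/-- `ℓ` is a prime not dividing `N`. -/
def h57_Good (N ℓ : ℕ) : Prop := ℓ.Prime ∧ ¬ ℓ ∣ N

open Classical in
/-- the cohomological Hecke operator `T_ℓ` on `Hom(Γ₀(N), A)` (zero if `ℓ` is not a prime
not dividing `N`), as a function. -/
def h57_Tfun (hCoh : CohHeckeStatement) (N : ℕ) [NeZero N] (ℓ : ℕ) (A : Type) [AddCommGroup A]
    (φ : Additive (Gamma0 N) →+ A) : Additive (Gamma0 N) →+ A :=
  if h : h57_Good N ℓ then Classical.choose ((hCoh N ℓ h.1 h.2).2 A φ) else 0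

theorem h57_Tfun_bad (hCoh : CohHeckeStatement) {ℓ : ℕ} (h : ¬ h57_Good N ℓ) (A : Type)
    [AddCommGroup A] (φ : Additive (Gamma0 N) →+ A) : h57_Tfun hCoh N ℓ A φ = 0 := by
  rw [h57_Tfun, dif_neg h]

theorem h57_Tfun_spec (hCoh : CohHeckeStatement) {ℓ : ℕ} (h : h57_Good N ℓ) (A : Type)
    [AddCommGroup A] (φ : Additive (Gamma0 N) →+ A) :
    IsCohHeckeAdd N ℓ φ (h57_Tfun hCoh N ℓ A φ) := by
  rw [h57_Tfun, dif_pos h]
  exact (Classical.choose_spec ((hCoh N ℓ h.1 h.2).2 A φ)).1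

theorem h57_Tfun_par (hCoh : CohHeckeStatement) (ℓ : ℕ) (A : Type)
    [AddCommGroup A] (φ : Additive (Gamma0 N) →+ A)
    (hφ : Period.IsParabolicHom (Gamma0 N) φ) :
    Period.IsParabolicHom (Gamma0 N) (h57_Tfun hCoh N ℓ A φ) := by
  by_cases h : h57_Good N ℓ
  · rw [h57_Tfun, dif_pos h]
    exact (Classical.choose_spec ((hCoh N ℓ h.1 h.2).2 A φ)).2 hφ
  · rw [h57_Tfun_bad hCoh h]
    intro γ _
    rfl

theorem h57_Tfun_eq_of (hCoh : CohHeckeStatement) {ℓ : ℕ} (h : h57_Good N ℓ) {A : Type}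
    [AddCommGroup A] {φ φ' : Additive (Gamma0 N) →+ A} (h' : IsCohHeckeAdd N ℓ φ φ') :
    h57_Tfun hCoh N ℓ A φ = φ' :=
  h57_cohAdd_unique (hCoh N ℓ h.1 h.2).1 (h57_Tfun_spec hCoh h A φ) h'

theorem h57_Tfun_add (hCoh : CohHeckeStatement) (ℓ : ℕ) (A : Type)
    [AddCommGroup A] (φ ψ : Additive (Gamma0 N) →+ A) :
    h57_Tfun hCoh N ℓ A (φ + ψ) = h57_Tfun hCoh N ℓ A φ + h57_Tfun hCoh N ℓ A ψ := by
  by_cases h : h57_Good N ℓ
  · apply h57_Tfun_eq_of hCoh h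
    intro γ π c hd
    rw [AddMonoidHom.add_apply, h57_Tfun_spec hCoh h A φ γ π c hd,
      h57_Tfun_spec hCoh h A ψ γ π c hd, ← Finset.sum_add_distrib]
    rfl
  · rw [h57_Tfun_bad hCoh h, h57_Tfun_bad hCoh h, h57_Tfun_bad hCoh h, add_zero]

theorem h57_Tfun_zero (hCoh : CohHeckeStatement) (ℓ : ℕ) (A : Type)
    [AddCommGroup A] : h57_Tfun hCoh N ℓ A (0 : Additive (Gamma0 N) →+ A) = 0 := by
  have h := h57_Tfun_add hCoh (N := N) ℓ A 0 0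
  rw [add_zero] at h
  exact left_eq_add.mp h

/-- compatibility with a homomorphism of coefficient groups -/
theorem h57_Tfun_comp (hCoh : CohHeckeStatement) (ℓ : ℕ) {A B : Type}
    [AddCommGroup A] [AddCommGroup B] (f : A →+ B) (φ : Additive (Gamma0 N) →+ A) :
    h57_Tfun hCoh N ℓ B (f.comp φ) = f.comp (h57_Tfun hCoh N ℓ A φ) := by
  by_cases h : h57_Good N ℓ
  · apply h57_Tfun_eq_of hCoh h
    intro γ π c hd
    rw [AddMonoidHom.comp_apply, h57_Tfun_spec hCoh h A φ γ π c hd, map_sum]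
    rfl
  · rw [h57_Tfun_bad hCoh h, h57_Tfun_bad hCoh h, AddMonoidHom.comp_zero]

/-- `T_ℓ` on `Hom(Γ₀(N), ℂ)` is `ℂ`-linear -/
theorem h57_Tfun_smul (hCoh : CohHeckeStatement) (ℓ : ℕ) (a : ℂ)
    (φ : Additive (Gamma0 N) →+ ℂ) :
    h57_Tfun hCoh N ℓ ℂ (a • φ) = a • h57_Tfun hCoh N ℓ ℂ φ := by
  have h := h57_Tfun_comp hCoh (N := N) ℓ (AddMonoidHom.mulLeft a) φ
  have e1 : (AddMonoidHom.mulLeft a).comp φ = a • φ := by
    refine AddMonoidHom.ext fun γ => ?_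
    rfl
  have e2 : (AddMonoidHom.mulLeft a).comp (h57_Tfun hCoh N ℓ ℂ φ)
      = a • h57_Tfun hCoh N ℓ ℂ φ := by
    refine AddMonoidHom.ext fun γ => ?_
    rfl
  rw [e1, e2] at h
  exact h

/-- the lattice `Λ = Hom_par(Γ₀(N), ℤ)` -/
abbrev h57_Lam (N : ℕ) : Submodule ℤ (Additive (Gamma0 N) →+ ℤ) :=
  Period.parabolicHoms ℤ (Gamma0 N) ℤ

/-- `T_ℓ` on `Λ`. -/
def h57_TLam (hCoh : CohHeckeStatement) (N : ℕ) [NeZero N] (ℓ : ℕ) :
    Module.End ℤ (h57_Lam N) :=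
  AddMonoidHom.toIntLinearMap
    { toFun := fun φ => ⟨h57_Tfun hCoh N ℓ ℤ φ.1, h57_Tfun_par hCoh ℓ ℤ φ.1 φ.2⟩
      map_zero' := Subtype.ext (h57_Tfun_zero hCoh ℓ ℤ)
      map_add' := fun φ ψ => Subtype.ext (h57_Tfun_add hCoh ℓ ℤ φ.1 ψ.1) }

@[simp] theorem h57_TLam_coe (hCoh : CohHeckeStatement) (ℓ : ℕ) (φ : h57_Lam N) :
    ((h57_TLam hCoh N ℓ φ : h57_Lam N) : Additive (Gamma0 N) →+ ℤ)
      = h57_Tfun hCoh N ℓ ℤ φ.1 := rfl

theorem h57_TLam_bad (hCoh : CohHeckeStatement) {ℓ : ℕ} (h : ¬ h57_Good N ℓ) :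
    h57_TLam hCoh N ℓ = 0 := by
  apply LinearMap.ext
  intro φ
  apply Subtype.ext
  rw [h57_TLam_coe, h57_Tfun_bad hCoh h]
  rfl

/-- `T_ℓ` on `Hom(Γ₀(N), ℂ)`. -/
def h57_SC (hCoh : CohHeckeStatement) (N : ℕ) [NeZero N] (ℓ : ℕ) :
    Module.End ℂ (Additive (Gamma0 N) →+ ℂ) where
  toFun := h57_Tfun hCoh N ℓ ℂ
  map_add' := h57_Tfun_add hCoh ℓ ℂ
  map_smul' := fun a φ => h57_Tfun_smul hCoh ℓ a φ

@[simp] theorem h57_SC_apply (hCoh : CohHeckeStatement) (ℓ : ℕ)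
    (φ : Additive (Gamma0 N) →+ ℂ) : h57_SC hCoh N ℓ φ = h57_Tfun hCoh N ℓ ℂ φ := rfl

/-- the inclusion `Λ → Hom(Γ₀(N), ℂ)` -/
def h57_j (N : ℕ) : h57_Lam N →ₗ[ℤ] (Additive (Gamma0 N) →+ ℂ) :=
  AddMonoidHom.toIntLinearMap
    { toFun := fun φ => (Int.castAddHom ℂ).comp φ.1
      map_zero' := by
        refine AddMonoidHom.ext fun γ => ?_
        simp
      map_add' := fun φ ψ => by
        refine AddMonoidHom.ext fun γ => ?_
        simp }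

@[simp] theorem h57_j_apply (φ : h57_Lam N) (γ : Additive (Gamma0 N)) :
    h57_j N φ γ = ((φ.1 γ : ℤ) : ℂ) := rfl

theorem h57_SC_j (hCoh : CohHeckeStatement) (ℓ : ℕ) (φ : h57_Lam N) :
    h57_SC hCoh N ℓ (h57_j N φ) = h57_j N (h57_TLam hCoh N ℓ φ) :=
  h57_Tfun_comp hCoh ℓ (Int.castAddHom ℂ) φ.1

end Fermat.Agent.Jac.HKM
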