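import Fermat.Agent.Jac.HKM.Trip

/-!
# IN-JAC, task HKM: the cohomological Hecke operators commute on the lattice `Λ`

The commutativity is transported from `J₀(N)` through the Kummer characters modulo all
primes `q`.
-/

set_option autoImplicit false
set_option linter.unusedSectionVars false

open ModularCurve AlgebraicCurve UpperHalfPlane CongruenceSubgroup
open scoped MatrixGroups

noncomputable section

namespace Fermat.Agent.Jac.HKM

open Fermat.Agent.S24 (Kbar FF)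

variable {N : ℕ} [NeZero N]

/-- one Hecke step on the triple of an exponential character -/
theorem h57_Trip_hecke_E (hHecke : KummerHeckeStatement) (hCoh : CohHeckeStatement) {q : ℕ}
    (hq : 0 < q) (ℓ : Nat.Primes) (hℓ : ¬ (ℓ : ℕ) ∣ N) {x : JZero N}
    (φ : Additive (Gamma0 N) →+ ℤ) (h : h57_Trip N q x (h57_E N q φ)) :
    h57_Trip N q (heckeOperatorBar N ℓ x) (h57_E N q (h57_Tfun hCoh N ℓ ℤ φ)) := by
  obtain ⟨χ', hcoh, hT⟩ := h57_Trip_hecke hHecke hq ℓ hℓ h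
  have hgood : h57_Good N (ℓ : ℕ) := ⟨ℓ.2, hℓ⟩
  rw [← h57_E_coh hCoh hgood q φ χ' hcoh]
  exact hT

theorem h57_TLam_comm (hPD : PDStatement) (hUniq : KummerUniqStatement)
    (hMul : KummerMulStatement) (hSurj : KummerSurjStatement) (hHecke : KummerHeckeStatement)
    (hCoh : CohHeckeStatement) (hcomm : HeckeOperatorsCommuteBar N) (ℓ ℓ' : Nat.Primes) :
    h57_TLam hCoh N (ℓ : ℕ) * h57_TLam hCoh N (ℓ' : ℕ)
      = h57_TLam hCoh N (ℓ' : ℕ) * h57_TLam hCoh N (ℓ : ℕ) := by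
  by_cases hℓ : h57_Good N (ℓ : ℕ)
  swap
  · rw [h57_TLam_bad hCoh hℓ, zero_mul, mul_zero]
  by_cases hℓ' : h57_Good N (ℓ' : ℕ)
  swap
  · rw [h57_TLam_bad hCoh hℓ', zero_mul, mul_zero]
  apply LinearMap.ext
  intro φ
  apply Subtype.ext
  rw [Module.End.mul_apply, Module.End.mul_apply, h57_TLam_coe, h57_TLam_coe, h57_TLam_coe,
    h57_TLam_coe]
  refine AddMonoidHom.ext fun γ => ?_
  obtain ⟨γ, rfl⟩ := Additive.ofMul.surjective γ
  rw [← sub_eq_zero]
  apply h57_int_eq_zero_of_forall_prime_dvd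
  intro q hq
  obtain ⟨x, -, hx⟩ := h57_Trip_surj hPD hSurj hq φ
  have h1 := h57_Trip_hecke_E hHecke hCoh hq.pos ℓ hℓ.2 _
    (h57_Trip_hecke_E hHecke hCoh hq.pos ℓ' hℓ'.2 _ hx)
  have h2 := h57_Trip_hecke_E hHecke hCoh hq.pos ℓ' hℓ'.2 _
    (h57_Trip_hecke_E hHecke hCoh hq.pos ℓ hℓ.2 _ hx)
  have h3 : heckeOperatorBar N ℓ (heckeOperatorBar N ℓ' x)
      = heckeOperatorBar N ℓ' (heckeOperatorBar N ℓ x) := by
    have := congrArg (fun f : Module.End ℤ (JZero N) => f x) (hcomm ℓ ℓ')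
    simpa only [Module.End.mul_apply] using this
  rw [h3] at h1
  have h4 := h57_Trip_unique hUniq hMul hq.pos h1 h2
  exact (h57_E_eq_iff hq.ne_zero _ _).mp h4 γ

end Fermat.Agent.Jac.HKM
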