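import Fermat.Agent.Jac.Skeleton
import Fermat.Agent.S24.FIGeneral
import Fermat.Agent.S24.DegLe

/-!
# IN-JAC, task HKM: functions without zeros and poles are constant
-/

set_option autoImplicit false
set_option linter.unusedSectionVars false

open ModularCurve AlgebraicCurve IntermediateField

noncomputable section

namespace Fermat.Agent.Jac.HKM

open Fermat.Agent.S24 (Kbar FF)

/-- a nonzero function all of whose orders vanish is a constant -/
theorem h57_const_of_ord_zero (N : ℕ) [NeZero N] (u : FF N)
    (hu : ∀ v : Place Kbar (FF N), v.ord u = 0) :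
    ∃ c : Kbar, algebraMap Kbar (FF N) c = u := by
  by_cases halg : IsAlgebraic Kbar u
  · exact Fermat.Agent.S24.pd_exists_algebraMap_eq halg
  · exfalso
    have htr : Transcendental Kbar u := halg
    have hle := Fermat.Agent.S24.finrank_le_index N
    have hfin0 : FiniteDimensional Kbar⟮Fermat.Agent.S24.jBar N⟯ (FF N) := hle.1
    have hfin : FiniteDimensional Kbar⟮u⟯ (FF N) :=
      Fermat.Agent.S24.pd_finiteDimensional_adjoin_of_transcendental
        (Fermat.Agent.S24.jBar N) u htr
    obtain ⟨-, s, hs, hsum⟩ := Fermat.Agent.S24.fi_general (K := Kbar) (F := FF N) u htr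
    have hs' : s = ∅ := by
      apply Finset.eq_empty_of_forall_notMem
      intro v hv
      have := (hs v).mp hv
      rw [hu v] at this
      exact lt_irrefl _ this
    rw [hs', Finset.sum_empty] at hsum
    have hpos : 0 < Module.finrank Kbar⟮u⟯ (FF N) := Module.finrank_pos
    have : (0 : ℤ) < (Module.finrank Kbar⟮u⟯ (FF N) : ℤ) := by exact_mod_cast hpos
    rw [← hsum] at this
    exact lt_irrefl _ this

end Fermat.Agent.Jac.HKM
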