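import Fermat.Agent.Jac.HKM.Coh

/-!
# IN-JAC, task HKM: the exponential characters `exp (2πi φ / q)`
-/

set_option autoImplicit false
set_option linter.unusedSectionVars false

open ModularCurve AlgebraicCurve UpperHalfPlane CongruenceSubgroup
open scoped MatrixGroups

noncomputable section

namespace Fermat.Agent.Jac.HKM

/-- `exp (2πi n / q)` as a unit of `ℂ`. -/
def h57_eU (q : ℕ) (n : ℤ) : ℂˣ :=
  Units.mk0 (Complex.exp (2 * Real.pi * Complex.I * (n : ℂ) / (q : ℂ))) (Complex.exp_ne_zero _)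

@[simp] theorem h57_eU_coe (q : ℕ) (n : ℤ) :
    ((h57_eU q n : ℂˣ) : ℂ) = Complex.exp (2 * Real.pi * Complex.I * (n : ℂ) / (q : ℂ)) := rfl

theorem h57_eU_add (q : ℕ) (m n : ℤ) : h57_eU q (m + n) = h57_eU q m * h57_eU q n := by
  apply Units.ext
  rw [Units.val_mul, h57_eU_coe, h57_eU_coe, h57_eU_coe, ← Complex.exp_add]
  congr 1
  push_cast
  ring

theorem h57_eU_zero (q : ℕ) : h57_eU q 0 = 1 := by
  apply Units.ext
  rw [h57_eU_coe]
  simp

theorem h57_eU_neg (q : ℕ) (n : ℤ) : h57_eU q (-n) = (h57_eU q n)⁻¹ := by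
  have h := h57_eU_add q n (-n)
  rw [add_neg_cancel, h57_eU_zero] at h
  exact (inv_eq_of_mul_eq_one_right h.symm).symm

theorem h57_eU_sum {ι : Type*} (q : ℕ) (s : Finset ι) (f : ι → ℤ) :
    h57_eU q (∑ i ∈ s, f i) = ∏ i ∈ s, h57_eU q (f i) := by
  classical
  induction s using Finset.induction_on with
  | empty => simp [h57_eU_zero]
  | insert a s ha ih =>
    rw [Finset.sum_insert ha, Finset.prod_insert ha, h57_eU_add, ih]

theorem h57_eU_eq_one_iff {q : ℕ} (hq : q ≠ 0) (n : ℤ) : h57_eU q n = 1 ↔ (q : ℤ) ∣ n := by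
  have hq' : (q : ℂ) ≠ 0 := Nat.cast_ne_zero.mpr hq
  have hpi : (2 * (Real.pi : ℂ) * Complex.I) ≠ 0 := Complex.two_pi_I_ne_zero
  constructor
  · intro h
    have h1 : Complex.exp (2 * Real.pi * Complex.I * (n : ℂ) / (q : ℂ)) = 1 := by
      have := congrArg (fun u : ℂˣ => (u : ℂ)) h
      simpa using this
    obtain ⟨k, hk⟩ := Complex.exp_eq_one_iff.mp h1
    have h2 : (n : ℂ) = (k : ℂ) * (q : ℂ) := by
      have h3 : (2 * (Real.pi : ℂ) * Complex.I) * (n : ℂ)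
          = (2 * (Real.pi : ℂ) * Complex.I) * ((k : ℂ) * (q : ℂ)) := by
        have h4 : 2 * (Real.pi : ℂ) * Complex.I * (n : ℂ) / (q : ℂ) * (q : ℂ)
            = 2 * (Real.pi : ℂ) * Complex.I * (n : ℂ) := div_mul_cancel₀ _ hq'
        rw [← h4, hk]
        ring
      exact mul_left_cancel₀ hpi h3
    have h4 : n = k * (q : ℤ) := by exact_mod_cast h2
    exact ⟨k, by rw [h4, mul_comm]⟩
  · rintro ⟨k, rfl⟩
    apply Units.ext
    rw [h57_eU_coe, Units.val_one]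
    apply Complex.exp_eq_one_iff.mpr
    refine ⟨k, ?_⟩
    push_cast
    field_simp

variable {N : ℕ} [NeZero N]

/-- the character `exp (2πi φ / q)` of `Γ₀(N)`. -/
def h57_E (N q : ℕ) (φ : Additive (Gamma0 N) →+ ℤ) : Gamma0 N →* ℂˣ where
  toFun γ := h57_eU q (φ (Additive.ofMul γ))
  map_one' := by
    rw [ofMul_one, map_zero, h57_eU_zero]
  map_mul' := fun a b => by
    rw [ofMul_mul, map_add, h57_eU_add]

@[simp] theorem h57_E_apply (q : ℕ) (φ : Additive (Gamma0 N) →+ ℤ) (γ : Gamma0 N) :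
    h57_E N q φ γ = h57_eU q (φ (Additive.ofMul γ)) := rfl

theorem h57_E_isExpChar (q : ℕ) (φ : Additive (Gamma0 N) →+ ℤ) :
    IsExpChar N q φ (h57_E N q φ) := fun _ => rfl

theorem h57_E_add (q : ℕ) (φ ψ : Additive (Gamma0 N) →+ ℤ) :
    h57_E N q (φ + ψ) = h57_E N q φ * h57_E N q ψ := by
  refine MonoidHom.ext fun γ => ?_
  rw [MonoidHom.mul_apply, h57_E_apply, h57_E_apply, h57_E_apply, AddMonoidHom.add_apply,
    h57_eU_add]

theorem h57_E_zero (q : ℕ) : h57_E N q 0 = 1 := by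
  refine MonoidHom.ext fun γ => ?_
  rw [h57_E_apply, AddMonoidHom.zero_apply, h57_eU_zero, MonoidHom.one_apply]

theorem h57_E_neg (q : ℕ) (φ : Additive (Gamma0 N) →+ ℤ) :
    h57_E N q (-φ) = (h57_E N q φ)⁻¹ := by
  refine MonoidHom.ext fun γ => ?_
  rw [MonoidHom.inv_apply, h57_E_apply, h57_E_apply, AddMonoidHom.neg_apply, h57_eU_neg]

theorem h57_E_eq_one_iff {q : ℕ} (hq : q ≠ 0) (φ : Additive (Gamma0 N) →+ ℤ) :
    h57_E N q φ = 1 ↔ ∀ γ : Gamma0 N, (q : ℤ) ∣ φ (Additive.ofMul γ) := by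
  constructor
  · intro h γ
    have h1 := congrArg (fun χ : Gamma0 N →* ℂˣ => χ γ) h
    simp only [h57_E_apply, MonoidHom.one_apply] at h1
    exact (h57_eU_eq_one_iff hq _).mp h1
  · intro h
    refine MonoidHom.ext fun γ => ?_
    rw [h57_E_apply, MonoidHom.one_apply]
    exact (h57_eU_eq_one_iff hq _).mpr (h γ)

theorem h57_E_eq_iff {q : ℕ} (hq : q ≠ 0) (φ ψ : Additive (Gamma0 N) →+ ℤ) :
    h57_E N q φ = h57_E N q ψ ↔
      ∀ γ : Gamma0 N, (q : ℤ) ∣ φ (Additive.ofMul γ) - ψ (Additive.ofMul γ) := by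
  have key : ∀ γ : Gamma0 N, h57_eU q (φ (Additive.ofMul γ)) = h57_eU q (ψ (Additive.ofMul γ))
      ↔ (q : ℤ) ∣ φ (Additive.ofMul γ) - ψ (Additive.ofMul γ) := by
    intro γ
    rw [← h57_eU_eq_one_iff hq, sub_eq_add_neg, h57_eU_add, h57_eU_neg, mul_inv_eq_one]
  constructor
  · intro h γ
    have h1 := congrArg (fun χ : Gamma0 N →* ℂˣ => χ γ) h
    simp only [h57_E_apply] at h1
    exact (key γ).mp h1
  · intro h
    refine MonoidHom.ext fun γ => ?_
    rw [h57_E_apply, h57_E_apply]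
    exact (key γ).mpr (h γ)

/-- an integer divisible by all primes vanishes -/
theorem h57_int_eq_zero_of_forall_prime_dvd (n : ℤ) (h : ∀ q : ℕ, q.Prime → (q : ℤ) ∣ n) :
    n = 0 := by
  obtain ⟨q, hq1, hq2⟩ := Nat.exists_infinite_primes (n.natAbs + 1)
  have h1 := h q hq2
  have h2 : q ∣ n.natAbs := Int.natCast_dvd.mp h1
  by_contra hn
  have h3 : 0 < n.natAbs := Int.natAbs_pos.mpr hn
  have h4 := Nat.le_of_dvd h3 h2
  omega

/-- the cohomological Hecke operator on exponential characters -/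
theorem h57_E_coh (hCoh : CohHeckeStatement) {ℓ : ℕ} (h : h57_Good N ℓ) (q : ℕ)
    (φ : Additive (Gamma0 N) →+ ℤ) (χ' : Gamma0 N →* ℂˣ)
    (hχ : IsCohHecke N ℓ (h57_E N q φ) χ') :
    χ' = h57_E N q (h57_Tfun hCoh N ℓ ℤ φ) := by
  refine h57_coh_unique (hCoh N ℓ h.1 h.2).1 hχ ?_
  intro γ π c hd
  rw [h57_E_apply, h57_Tfun_spec hCoh h ℤ φ γ π c hd, h57_eU_sum]
  rfl

end Fermat.Agent.Jac.HKM
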