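import Fermat.Agent.Jac.HKM.Comm
import Fermat.Agent.S29.LatticeKey

/-!
# IN-JAC, task HKM: Hecke polynomials on Kummer triples
-/

set_option autoImplicit false
set_option linter.unusedSectionVars false

open ModularCurve AlgebraicCurve UpperHalfPlane CongruenceSubgroup
open scoped MatrixGroups

noncomputable section

namespace Fermat.Agent.Jac.HKM

open Fermat.Agent.S24 (Kbar FF)
open Fermat.Agent.S29.LK (evalOfCommute evalOfCommute_X evalOfCommute_C)

variable {N : ℕ} [NeZero N]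

open Classical in
/-- the substitution killing the variables `ℓ ∣ N` -/
def h57_subst (N : ℕ) : MvPolynomial Nat.Primes ℤ →ₐ[ℤ] MvPolynomial Nat.Primes ℤ :=
  MvPolynomial.aeval (fun ℓ : Nat.Primes =>
    if ¬ (ℓ : ℕ) ∣ N then (MvPolynomial.X ℓ : MvPolynomial Nat.Primes ℤ) else 0)

theorem h57_subst_X_good {ℓ : Nat.Primes} (h : ¬ (ℓ : ℕ) ∣ N) :
    h57_subst N (MvPolynomial.X ℓ) = MvPolynomial.X ℓ := by
  rw [h57_subst, MvPolynomial.aeval_X, if_pos h]

theorem h57_subst_X_bad {ℓ : Nat.Primes} (h : (ℓ : ℕ) ∣ N) :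
    h57_subst N (MvPolynomial.X ℓ) = 0 := by
  rw [h57_subst, MvPolynomial.aeval_X, if_neg (not_not.mpr h)]

theorem h57_aeval_congr {S : Type*} [CommRing S] (a a' : Nat.Primes → S)
    (P : MvPolynomial Nat.Primes ℤ) (h : ∀ ℓ ∈ P.vars, a ℓ = a' ℓ) :
    MvPolynomial.aeval a P = MvPolynomial.aeval a' P := by
  rw [MvPolynomial.aeval_eq_eval₂Hom, MvPolynomial.aeval_eq_eval₂Hom]
  exact MvPolynomial.eval₂Hom_congr' rfl (fun i hi _ => h i hi) rfl

theorem h57_subst_eq (P : MvPolynomial Nat.Primes ℤ) (hvars : ∀ ℓ ∈ P.vars, ¬ (ℓ : ℕ) ∣ N) :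
    h57_subst N P = P := by
  classical
  have h1 := h57_aeval_congr (fun ℓ : Nat.Primes =>
    if ¬ (ℓ : ℕ) ∣ N then (MvPolynomial.X ℓ : MvPolynomial Nat.Primes ℤ) else 0)
    MvPolynomial.X P (fun ℓ hℓ => by rw [if_pos (hvars ℓ hℓ)])
  rw [h57_subst]
  exact h1.trans (MvPolynomial.aeval_X_left_apply P)

/-- pairs `(x, φ)` such that `exp (2πi φ / q)` is the Kummer character of `x` -/
def h57_Q (N q : ℕ) [NeZero N] (x : JZero N) (φ : Additive (Gamma0 N) →+ ℤ) : Prop :=
  h57_Trip N q x (h57_E N q φ)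

theorem h57_Q_add (hMul : KummerMulStatement) {q : ℕ} (hq : 0 < q) {x x' : JZero N}
    {φ φ' : Additive (Gamma0 N) →+ ℤ} (h : h57_Q N q x φ) (h' : h57_Q N q x' φ') :
    h57_Q N q (x + x') (φ + φ') := by
  unfold h57_Q
  rw [h57_E_add]
  exact h57_Trip_add hMul hq h h'

theorem h57_Q_neg (hMul : KummerMulStatement) {q : ℕ} (hq : 0 < q) {x : JZero N}
    {φ : Additive (Gamma0 N) →+ ℤ} (h : h57_Q N q x φ) :
    h57_Q N q (-x) (-φ) := by
  unfold h57_Q
  rw [h57_E_neg]
  exact h57_Trip_neg hMul hq h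

theorem h57_Q_zero (hMul : KummerMulStatement) {q : ℕ} (hq : 0 < q) :
    h57_Q N q (0 : JZero N) 0 := by
  unfold h57_Q
  rw [h57_E_zero]
  exact h57_Trip_zero hMul hq

theorem h57_Q_zsmul (hMul : KummerMulStatement) {q : ℕ} (hq : 0 < q) {x : JZero N}
    {φ : Additive (Gamma0 N) →+ ℤ} (h : h57_Q N q x φ) (c : ℤ) :
    h57_Q N q (c • x) (c • φ) := by
  induction c using Int.induction_on with
  | zero => rw [zero_zsmul, zero_zsmul]; exact h57_Q_zero hMul hq
  | succ n ih =>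
    rw [add_zsmul, add_zsmul, one_zsmul, one_zsmul]
    exact h57_Q_add hMul hq ih h
  | pred n ih =>
    rw [sub_zsmul, sub_zsmul, one_zsmul, one_zsmul]
    exact h57_Q_add hMul hq ih (h57_Q_neg hMul hq h)

/-- **Hecke polynomials act compatibly on Kummer triples and on the lattice.** -/
theorem h57_poly_step (hMul : KummerMulStatement) (hHecke : KummerHeckeStatement)
    (hCoh : CohHeckeStatement) (hcomm : HeckeOperatorsCommuteBar N) {q : ℕ} (hq : 0 < q)
    (hT : ∀ ℓ ℓ' : Nat.Primes, h57_TLam hCoh N (ℓ : ℕ) * h57_TLam hCoh N (ℓ' : ℕ)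
      = h57_TLam hCoh N (ℓ' : ℕ) * h57_TLam hCoh N (ℓ : ℕ))
    (R : MvPolynomial Nat.Primes ℤ) :
    ∀ (x : JZero N) (φ : h57_Lam N), h57_Q N q x φ.1 →
      h57_Q N q (heckeEvalBar hcomm (h57_subst N R) x)
        ((evalOfCommute (fun ℓ : Nat.Primes => h57_TLam hCoh N (ℓ : ℕ)) hT R) φ).1 := by
  induction R using MvPolynomial.induction_on with
  | C c =>
    intro x φ h
    have e1 : h57_subst N (MvPolynomial.C c) = MvPolynomial.C c := by
      rw [h57_subst, MvPolynomial.aeval_C]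
      rfl
    have e2 : heckeEvalBar hcomm (h57_subst N (MvPolynomial.C c)) x = c • x := by
      rw [e1, heckeEvalBar_C]
      exact Module.End.intCast_apply c x
    have e3 : ((evalOfCommute (fun ℓ : Nat.Primes => h57_TLam hCoh N (ℓ : ℕ)) hT
        (MvPolynomial.C c)) φ).1 = c • φ.1 := by
      rw [evalOfCommute_C]
      have := Module.End.intCast_apply (R := ℤ) c φ
      rw [this]
      rfl
    rw [e2, e3]
    exact h57_Q_zsmul hMul hq h c
  | add R₁ R₂ h₁ h₂ =>
    intro x φ h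
    rw [map_add, map_add, map_add, LinearMap.add_apply, LinearMap.add_apply,
      Submodule.coe_add]
    exact h57_Q_add hMul hq (h₁ x φ h) (h₂ x φ h)
  | mul_X R ℓ ih =>
    intro x φ h
    have eL : (evalOfCommute (fun ℓ : Nat.Primes => h57_TLam hCoh N (ℓ : ℕ)) hT
        (R * MvPolynomial.X ℓ)) φ
        = (evalOfCommute (fun ℓ : Nat.Primes => h57_TLam hCoh N (ℓ : ℕ)) hT R)
            (h57_TLam hCoh N (ℓ : ℕ) φ) := by
      rw [map_mul, evalOfCommute_X]
      rfl
    by_cases hℓ : (ℓ : ℕ) ∣ N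
    · have hbad : ¬ h57_Good N (ℓ : ℕ) := fun hg => hg.2 hℓ
      have eJ : heckeEvalBar hcomm (h57_subst N (R * MvPolynomial.X ℓ)) x = 0 := by
        rw [map_mul, h57_subst_X_bad hℓ, mul_zero, map_zero]
        rfl
      have eL' : (evalOfCommute (fun ℓ : Nat.Primes => h57_TLam hCoh N (ℓ : ℕ)) hT
          (R * MvPolynomial.X ℓ)) φ = 0 := by
        rw [eL, h57_TLam_bad hCoh hbad, LinearMap.zero_apply, map_zero]
      rw [eJ, eL']
      exact h57_Q_zero hMul hq
    · have eJ : heckeEvalBar hcomm (h57_subst N (R * MvPolynomial.X ℓ)) x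
          = heckeEvalBar hcomm (h57_subst N R) (heckeOperatorBar N ℓ x) := by
        rw [map_mul, h57_subst_X_good hℓ, map_mul]
        have e2 : heckeEvalBar hcomm (MvPolynomial.X ℓ) = heckeOperatorBar N ℓ :=
          heckeEvalBar_heckeGen hcomm ℓ
        rw [e2]
        rfl
      rw [eJ, eL]
      apply ih
      rw [h57_TLam_coe]
      exact h57_Trip_hecke_E hHecke hCoh hq ℓ hℓ φ.1 h

end Fermat.Agent.Jac.HKM
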