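import Fermat.Agent.Jac.HKM.Exp
import Fermat.Agent.Jac.HKM.Const

/-!
# IN-JAC, task HKM: the calculus of Kummer triples

`h57_Trip N q x χ`: the point `x` of `J₀(N)` is the class of a divisor `D` of degree zero with
`q D = div f` and `χ` is the Kummer character of `f`.
-/

set_option autoImplicit false
set_option linter.unusedSectionVars false

open ModularCurve AlgebraicCurve UpperHalfPlane CongruenceSubgroup
open scoped MatrixGroups

noncomputable section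

namespace Fermat.Agent.Jac.HKM

open Fermat.Agent.S24 (Kbar FF)

variable {N : ℕ} [NeZero N]

/-- Kummer triples. -/
def h57_Trip (N q : ℕ) [NeZero N] (x : JZero N) (χ : Gamma0 N →* ℂˣ) : Prop :=
  ∃ (D : Divisor.degZero (K := Kbar) (F := FF N)) (f : FF N), f ≠ 0 ∧
    (∀ v : Place Kbar (FF N), v.ord f = q * (D : Divisor Kbar (FF N)) v) ∧
    KummerChar N q f χ ∧ Pic0.mk D = x

theorem h57_Trip_add (hMul : KummerMulStatement) {q : ℕ} (hq : 0 < q) {x x' : JZero N}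
    {χ χ' : Gamma0 N →* ℂˣ} (h : h57_Trip N q x χ) (h' : h57_Trip N q x' χ') :
    h57_Trip N q (x + x') (χ * χ') := by
  obtain ⟨D, f, hf, hord, hK, rfl⟩ := h
  obtain ⟨D', f', hf', hord', hK', rfl⟩ := h'
  refine ⟨D + D', f * f', mul_ne_zero hf hf', ?_, (hMul N q hq).1 f f' χ χ' hK hK',
    Pic0.mk_add D D'⟩
  intro v
  rw [Place.ord_mul v hf hf', hord, hord', AddSubgroup.coe_add, Finsupp.add_apply]
  ring

theorem h57_Trip_neg (hMul : KummerMulStatement) {q : ℕ} (hq : 0 < q) {x : JZero N}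
    {χ : Gamma0 N →* ℂˣ} (h : h57_Trip N q x χ) :
    h57_Trip N q (-x) χ⁻¹ := by
  obtain ⟨D, f, hf, hord, hK, rfl⟩ := h
  refine ⟨-D, f⁻¹, inv_ne_zero hf, ?_, (hMul N q hq).2.1 f χ hf hK, rfl⟩
  intro v
  rw [Place.ord_inv, hord, AddSubgroup.coe_neg, Finsupp.neg_apply]
  ring

theorem h57_Trip_zero (hMul : KummerMulStatement) {q : ℕ} (hq : 0 < q) :
    h57_Trip N q (0 : JZero N) 1 := by
  have hK := (hMul N q hq).2.2 (1 : FF N) one_ne_zero
  rw [one_pow] at hK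
  refine ⟨0, 1, one_ne_zero, ?_, hK, rfl⟩
  intro v
  simp

theorem h57_Trip_hecke (hHecke : KummerHeckeStatement) {q : ℕ} (hq : 0 < q)
    (ℓ : Nat.Primes) (hℓ : ¬ (ℓ : ℕ) ∣ N) {x : JZero N}
    {χ : Gamma0 N →* ℂˣ} (h : h57_Trip N q x χ) :
    ∃ χ' : Gamma0 N →* ℂˣ, IsCohHecke N (ℓ : ℕ) χ χ' ∧
      h57_Trip N q (heckeOperatorBar N ℓ x) χ' := by
  obtain ⟨D, f, hf, hord, hK, rfl⟩ := h
  obtain ⟨D', f', χ', hf', hord', hD', hcoh, hK'⟩ := hHecke N q hq ℓ hℓ D f χ hf hord hK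
  exact ⟨χ', hcoh, D', f', hf', hord', hK', hD'⟩

theorem h57_ord_pow (v : Place Kbar (FF N)) (g : FF N) (q : ℕ) :
    v.ord (g ^ q) = q * v.ord g := by
  have h := v.ord_zpow g (q : ℤ)
  rwa [zpow_natCast] at h

theorem h57_Trip_zero_eq (hUniq : KummerUniqStatement) (hMul : KummerMulStatement) {q : ℕ}
    (hq : 0 < q) {χ : Gamma0 N →* ℂˣ} (h : h57_Trip N q (0 : JZero N) χ) : χ = 1 := by
  obtain ⟨D, f, hf, hord, hK, hD⟩ := h
  have hD1 : D ∈ (Divisor.principal (K := Kbar) (F := FF N)).addSubgroupOf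
      (Divisor.degZero (K := Kbar) (F := FF N)) :=
    (QuotientAddGroup.eq_zero_iff D).mp hD
  have hD2 : (D : Divisor Kbar (FF N)) ∈ Divisor.principal (K := Kbar) (F := FF N) :=
    AddSubgroup.mem_addSubgroupOf.mp hD1
  obtain ⟨g, hg, hDg⟩ := hD2
  have hgq : g ^ q ≠ 0 := pow_ne_zero q hg
  have hu0 : f * (g ^ q)⁻¹ ≠ 0 := mul_ne_zero hf (inv_ne_zero hgq)
  have hu : ∀ v : Place Kbar (FF N), v.ord (f * (g ^ q)⁻¹) = 0 := by
    intro v
    rw [Place.ord_mul v hf (inv_ne_zero hgq), Place.ord_inv, h57_ord_pow, hord, hDg]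
    ring
  obtain ⟨c, hc⟩ := h57_const_of_ord_zero N _ hu
  obtain ⟨d, hd⟩ := IsAlgClosed.exists_pow_nat_eq c hq
  have hf' : f = (algebraMap Kbar (FF N) d * g) ^ q := by
    rw [mul_pow, ← map_pow, hd, hc, mul_assoc, inv_mul_cancel₀ hgq, mul_one]
  have hdg : algebraMap Kbar (FF N) d * g ≠ 0 := by
    intro h0
    rw [h0, zero_pow hq.ne'] at hf'
    exact hf hf'
  have hK1 := (hMul N q hq).2.2 (algebraMap Kbar (FF N) d * g) hdg
  rw [← hf'] at hK1
  exact hUniq N q hq f hf χ 1 hK hK1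

theorem h57_Trip_unique (hUniq : KummerUniqStatement) (hMul : KummerMulStatement) {q : ℕ}
    (hq : 0 < q) {x : JZero N} {χ χ' : Gamma0 N →* ℂˣ} (h : h57_Trip N q x χ)
    (h' : h57_Trip N q x χ') : χ = χ' := by
  have h1 := h57_Trip_add hMul hq h (h57_Trip_neg hMul hq h')
  rw [add_neg_cancel] at h1
  have h2 := h57_Trip_zero_eq hUniq hMul hq h1
  refine MonoidHom.ext fun γ => ?_
  have h3 := congrArg (fun ψ : Gamma0 N →* ℂˣ => ψ γ) h2
  simp only [MonoidHom.mul_apply, MonoidHom.inv_apply, MonoidHom.one_apply] at h3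
  exact mul_inv_eq_one.mp h3

theorem h57_Trip_surj (hPD : PDStatement) (hSurj : KummerSurjStatement) {q : ℕ}
    (hq : q.Prime) (φ : h57_Lam N) :
    ∃ x : JZero N, q • x = 0 ∧ h57_Trip N q x (h57_E N q φ.1) := by
  obtain ⟨f, ⟨hf, hsel⟩, hK⟩ := hSurj N q hq φ.1 φ.2 (h57_E N q φ.1) (h57_E_isExpChar q φ.1)
  have := hPD N
  obtain ⟨D₀, hD₀, hdeg⟩ := HasPrincipalDivisors.exists_divisor (K := Kbar) f hf
  have hq0 : (q : ℤ) ≠ 0 := by exact_mod_cast hq.ne_zero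
  set D : Divisor Kbar (FF N) := D₀.mapRange (fun n => n / (q : ℤ)) (Int.zero_ediv _) with hDdef
  have hDv : ∀ v : Place Kbar (FF N), (q : ℤ) * D v = v.ord f := by
    intro v
    rw [hDdef, Finsupp.mapRange_apply, hD₀]
    exact Int.mul_ediv_cancel' (hsel v)
  have hsm : (q : ℤ) • D = D₀ := by
    ext v
    rw [Finsupp.smul_apply, smul_eq_mul, hDv, hD₀]
  have hdegD : Divisor.degree D = 0 := by
    have h1 : (q : ℤ) * Divisor.degree D = 0 := by
      rw [← smul_eq_mul, ← map_zsmul, hsm, hdeg]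
    exact (mul_eq_zero.mp h1).resolve_left hq0
  refine ⟨Pic0.mk ⟨D, hdegD⟩, ?_, ⟨D, hdegD⟩, f, hf, fun v => (hDv v).symm, hK, rfl⟩
  have h2 : q • Pic0.mk (⟨D, hdegD⟩ : Divisor.degZero (K := Kbar) (F := FF N))
      = Pic0.mk (q • (⟨D, hdegD⟩ : Divisor.degZero (K := Kbar) (F := FF N))) := rfl
  rw [h2]
  apply (QuotientAddGroup.eq_zero_iff _).mpr
  apply AddSubgroup.mem_addSubgroupOf.mpr
  refine ⟨f, hf, fun v => ?_⟩
  rw [AddSubgroup.coe_nsmul, Finsupp.smul_apply, ← hD₀, ← hsm, Finsupp.smul_apply]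
  simp

end Fermat.Agent.Jac.HKM
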